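import Mathlib
import Fermat.Agent.T1B.Bal60.Mdeg

/-!
# T1B (S44), cell AD (ALG-DESCENT), helper46: torsion classes have multidegree `0`

`Bal60.P00 hg X = ker (Mdeg hg X)` and the target `ι → Multiplicative ℤ` of the multidegree is
torsion-free, so every class `x : LinePic c` with `x ^ n = 1`, `n ≠ 0`, lies in `P00`.  This is the
step "`M ^ p` trivial `⟹ M ∈ P00`" of AD-MAIN: the descended line of a `p`-torsion class needs no
descent of `P00`.
-/

set_option autoImplicit false
set_option linter.unusedSectionVars false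

universe u

namespace Fermat.Agent.T1B.AD46

open Fermat.Agent.Jac Fermat.Agent.Jac.LineOps39 Fermat.Agent.Jac.JSmooth85Alg
  Fermat.Agent.Jac.JGroup85Pic Fermat.Agent.T1B.RedN3 Fermat.Agent.T1B.Bal60

variable {A R0 R1 R01 : Type u} [CommRing A] [CommRing R0] [CommRing R1] [CommRing R01]
  [Algebra A R0] [Algebra A R1] [Algebra A R01] [Algebra R0 R01] [Algebra R1 R01]
  [IsScalarTower A R0 R01] [IsScalarTower A R1 R01]
  {c : TwoChart A R0 R1 R01} {p : A} {ι : Type} (hg : NodalGood c p ι)
  {K : Type u} [Field K]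

/-- An element of `Multiplicative ℤ` with a nonzero power equal to `1` is `1`. -/
theorem multiplicative_int_eq_one_of_pow {a : Multiplicative ℤ} {n : ℕ} (hn : n ≠ 0)
    (h : a ^ n = 1) : a = 1 := by
  have h1 : n • Multiplicative.toAdd a = 0 := by
    have := congrArg Multiplicative.toAdd h
    simpa using this
  rw [nsmul_eq_mul] at h1
  have h2 : Multiplicative.toAdd a = 0 := by
    rcases mul_eq_zero.1 h1 with h0 | h0
    · exact absurd (by exact_mod_cast h0) hn
    · exact h0
  exact Multiplicative.toAdd.injective h2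

/-- **Torsion classes have multidegree `0`.** -/
theorem mem_P00_of_pow_eq_one (X : ∀ i, Comp c (hg.P0 i) (hg.P1 i) K) (x : LinePic c) {n : ℕ}
    (hn : n ≠ 0) (h : x ^ n = 1) : x ∈ P00 hg X := by
  rw [P00_eq_ker, MonoidHom.mem_ker]
  have h1 := congrArg (Mdeg hg X) h
  rw [map_pow, map_one] at h1
  funext i
  have hi := congrFun h1 i
  rw [Pi.pow_apply, Pi.one_apply] at hi
  rw [Pi.one_apply]
  exact multiplicative_int_eq_one_of_pow hn hi

end Fermat.Agent.T1B.AD46
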